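/-
T1B / brick H (LIFTC, Option M): FINAL WIRING (helper63's file; compiled on helper93's warm box).
`qexp : Hol13.QEXP` from the three slices (P-A) `HForm79.pa`, (P-B) `HolGeom93.pb`,
(P-C) `HSemi32.pc_of_exists_geom (HolGeom93.exists_geom …)`; `liftQ := G4DS2.liftQ`;
`liftC : Top68.LIFTC Top68.SpHol`.
-/
import Mathlib
import Fermat.Agent.T1B.Hol13.Main
import Fermat.Agent.T1B.HForm79.PAFinal
import Fermat.Agent.T1B.HolGeom93.PB
import Fermat.Agent.T1B.HSemi32.Main
import Fermat.Agent.T1B.HolGeom93.Exists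
import Fermat.Agent.T1B.G4DS2.LiftQ
import Fermat.Agent.T1B.Top68.SpecialOcc

set_option autoImplicit false

namespace Fermat.Agent.T1B.HFinal63

open Fermat.Agent.T1B

/-- **QEXP**, unconditional. -/
theorem qexp : Hol13.QEXP :=
  Hol13.qexp_of_slices (fun N _ => HForm79.pa N)
    (fun N p _ hp h4 hpN A hA => HolGeom93.pb N p hp h4 hpN A hA)
    (fun N p _ hp h4 hpN A hA =>
      HSemi32.pc_of_exists_geom (HolGeom93.exists_geom A N hp h4 hpN hA))

/-- **LIFTQ**, unconditional. -/
theorem liftQ : Hol13.LIFTQ := G4DS2.liftQ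

/-- **LIFTC** for `SpHol`, unconditional. -/
theorem liftC : Top68.LIFTC Top68.SpHol := Top68.liftC_spHol qexp liftQ

end Fermat.Agent.T1B.HFinal63
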